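import Mathlib

/-!
# Transfer of homomorphisms along a system of coset representatives

For a group hom `ι : Γ →* G` and representatives `β : I → G` permuted by right multiplication
by `Γ` modulo left multiplication by `Γ`, we define the operator on `Hom(Γ, A)`
`φ ↦ (γ ↦ ∑ i, φ (c (γ, i)))` where `β i * γ = c (γ, i) * β (σ_γ i)`.
-/

set_option autoImplicit false

noncomputable section

namespace Fermat.Agent.HeckeCohom

/-- Sum over a finite set vanishes when the sum over every closed orbit segment vanishes. -/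
theorem sum_eq_zero_of_periodic {I A : Type*} [Fintype I] [AddCommGroup A] (σ : Equiv.Perm I)
    (a : I → A)
    (h : ∀ i : I, ∀ n : ℕ, (⇑σ)^[n] i = i → ∑ k ∈ Finset.range n, a ((⇑σ)^[k] i) = 0) :
    ∑ i, a i = 0 := by
  classical
  suffices H : ∀ S : Finset I, (∀ x ∈ S, σ x ∈ S) → ∑ i ∈ S, a i = 0 from
    H Finset.univ fun x _ => Finset.mem_univ _
  intro S
  induction S using Finset.strongInduction with
  | _ S IH =>
    intro hS
    rcases S.eq_empty_or_nonempty with rfl | ⟨i, hi⟩
    · simp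
    set n := Function.minimalPeriod (⇑σ) i with hn
    have hper : i ∈ Function.periodicPts (⇑σ) := by
      refine ⟨orderOf σ, orderOf_pos σ, ?_⟩
      show (⇑σ)^[orderOf σ] i = i
      rw [Equiv.Perm.iterate_eq_pow, pow_orderOf_eq_one]
      rfl
    have hnpos : 0 < n := Function.minimalPeriod_pos_of_mem_periodicPts hper
    have hni : (⇑σ)^[n] i = i := Function.iterate_minimalPeriod
    set O : Finset I := (Finset.range n).image fun k => (⇑σ)^[k] i with hO
    have hOS : O ⊆ S := by
      intro x hx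
      obtain ⟨k, -, rfl⟩ := Finset.mem_image.mp hx
      clear hx
      induction k with
      | zero => exact hi
      | succ k ih => rw [Function.iterate_succ_apply']; exact hS _ ih
    have hiO : i ∈ O := Finset.mem_image.mpr ⟨0, Finset.mem_range.mpr hnpos, rfl⟩
    have hsum : ∑ x ∈ O, a x = 0 := by
      rw [hO, Finset.sum_image]
      · exact h i n hni
      · exact fun x hx y hy e => Function.iterate_injOn_Iio_minimalPeriod
          (Set.mem_Iio.mpr (Finset.mem_range.mp hx)) (Set.mem_Iio.mpr (Finset.mem_range.mp hy)) e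
    have hlt : S \ O ⊂ S := Finset.sdiff_ssubset hOS ⟨i, hiO⟩
    have hinv : ∀ x ∈ S \ O, σ x ∈ S \ O := by
      intro x hx
      rw [Finset.mem_sdiff] at hx ⊢
      refine ⟨hS x hx.1, fun hxO => hx.2 ?_⟩
      obtain ⟨k, hk, hkx⟩ := Finset.mem_image.mp hxO
      rcases k with _ | k
      · refine Finset.mem_image.mpr ⟨n - 1, Finset.mem_range.mpr (by omega), σ.injective ?_⟩
        rw [← Function.iterate_succ_apply' (⇑σ) (n - 1) i, show (n - 1).succ = n by omega, hni]
        exact hkx
      · refine Finset.mem_image.mpr ⟨k, Finset.mem_range.mpr ?_, σ.injective ?_⟩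
        · have := Finset.mem_range.mp hk; omega
        · rw [← Function.iterate_succ_apply' (⇑σ) k i]
          exact hkx
    rw [← Finset.sum_sdiff hOS, IH _ hlt hinv, hsum, add_zero]

variable {Γ G I : Type*} [Group Γ] [Group G]

/-- A system of coset representatives for a double coset of the image of `ι`. -/
structure IsCosetSystem (ι : Γ →* G) (β : I → G) : Prop where
  inj : Function.Injective ι
  exists_step : ∀ (γ : Γ) (i : I), ∃ (c : Γ) (j : I), β i * ι γ = ι c * β j
  eq_of_eq : ∀ (c : Γ) (i j : I), β i = ι c * β j → i = j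

namespace IsCosetSystem

variable {ι : Γ →* G} {β : I → G} (h : IsCosetSystem ι β)
include h

/-- The element `c (γ, i)`. -/
def cocycle (γ : Γ) (i : I) : Γ := (h.exists_step γ i).choose

/-- The index `σ_γ i`. -/
def perm (γ : Γ) (i : I) : I := (h.exists_step γ i).choose_spec.choose

theorem spec (γ : Γ) (i : I) : β i * ι γ = ι (h.cocycle γ i) * β (h.perm γ i) :=
  (h.exists_step γ i).choose_spec.choose_spec

theorem eq_of_step {γ c : Γ} {i j : I} (e : β i * ι γ = ι c * β j) :
    h.perm γ i = j ∧ h.cocycle γ i = c := by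
  have e' : β (h.perm γ i) = ι ((h.cocycle γ i)⁻¹ * c) * β j := by
    rw [map_mul, map_inv, mul_assoc, ← e, h.spec γ i, inv_mul_cancel_left]
  have hj := h.eq_of_eq _ _ _ e'
  refine ⟨hj, h.inj ?_⟩
  rw [h.spec γ i, hj] at e
  exact mul_right_cancel e

theorem perm_eq {γ c : Γ} {i j : I} (e : β i * ι γ = ι c * β j) : h.perm γ i = j :=
  (h.eq_of_step e).1

theorem cocycle_eq {γ c : Γ} {i j : I} (e : β i * ι γ = ι c * β j) : h.cocycle γ i = c :=
  (h.eq_of_step e).2

theorem step_mul (γ δ : Γ) (i : I) :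
    β i * ι (γ * δ)
      = ι (h.cocycle γ i * h.cocycle δ (h.perm γ i)) * β (h.perm δ (h.perm γ i)) := by
  rw [map_mul, ← mul_assoc, h.spec γ i, mul_assoc, h.spec δ, ← mul_assoc, map_mul]

theorem perm_mul (γ δ : Γ) (i : I) : h.perm (γ * δ) i = h.perm δ (h.perm γ i) :=
  h.perm_eq (h.step_mul γ δ i)

theorem cocycle_mul (γ δ : Γ) (i : I) :
    h.cocycle (γ * δ) i = h.cocycle γ i * h.cocycle δ (h.perm γ i) :=
  h.cocycle_eq (h.step_mul γ δ i)

theorem perm_one (i : I) : h.perm 1 i = i :=
  h.perm_eq (c := 1) (by simp)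

theorem cocycle_one (i : I) : h.cocycle 1 i = 1 :=
  h.cocycle_eq (j := i) (by simp)

/-- `σ_γ` as a permutation. -/
def permEquiv (γ : Γ) : Equiv.Perm I where
  toFun := h.perm γ
  invFun := h.perm γ⁻¹
  left_inv i := by rw [← h.perm_mul, mul_inv_cancel, h.perm_one]
  right_inv i := by rw [← h.perm_mul, inv_mul_cancel, h.perm_one]

@[simp] theorem permEquiv_apply (γ : Γ) (i : I) : h.permEquiv γ i = h.perm γ i := rfl

theorem step_pow (γ : Γ) (i : I) {A : Type*} [AddCommGroup A] (φ : Additive Γ →+ A) (n : ℕ) :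
    ∃ c : Γ, β i * ι (γ ^ n) = ι c * β ((h.perm γ)^[n] i) ∧
      φ (Additive.ofMul c)
        = ∑ k ∈ Finset.range n, φ (Additive.ofMul (h.cocycle γ ((h.perm γ)^[k] i))) := by
  induction n with
  | zero => exact ⟨1, by simp, by simp⟩
  | succ n ih =>
    obtain ⟨c, hc, hφ⟩ := ih
    refine ⟨c * h.cocycle γ ((h.perm γ)^[n] i), ?_, ?_⟩
    · rw [pow_succ, map_mul, ← mul_assoc, hc, mul_assoc, h.spec, Function.iterate_succ_apply',
        ← mul_assoc, map_mul]
    · rw [ofMul_mul, map_add, Finset.sum_range_succ, hφ]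

variable [Fintype I] (R : Type*) [Semiring R] (A : Type*) [AddCommGroup A] [Module R A]

/-- The transfer operator on `Hom(Γ, A)`. -/
def transfer : (Additive Γ →+ A) →ₗ[R] (Additive Γ →+ A) where
  toFun φ :=
    AddMonoidHom.mk' (fun γ => ∑ i, φ (Additive.ofMul (h.cocycle (Additive.toMul γ) i)))
      (fun γ δ => by
        simp only [toMul_add, h.cocycle_mul, ofMul_mul, map_add, Finset.sum_add_distrib]
        exact congrArg₂ (· + ·) rfl (Equiv.sum_comp (h.permEquiv (Additive.toMul γ))
          (fun i => φ (Additive.ofMul (h.cocycle (Additive.toMul δ) i)))))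
  map_add' φ ψ := by
    ext γ
    simp [Finset.sum_add_distrib]
  map_smul' r φ := by
    ext γ
    simp [Finset.smul_sum]

variable {R A}

theorem transfer_apply (φ : Additive Γ →+ A) (γ : Γ) :
    h.transfer R A φ (Additive.ofMul γ) = ∑ i, φ (Additive.ofMul (h.cocycle γ i)) := rfl

/-- The transfer can be computed from any system of witnesses. -/
theorem transfer_eq_sum (φ : Additive Γ →+ A) (γ : Γ) (c : I → Γ) (σ : I → I)
    (e : ∀ i, β i * ι γ = ι (c i) * β (σ i)) :
    h.transfer R A φ (Additive.ofMul γ) = ∑ i, φ (Additive.ofMul (c i)) := by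
  rw [h.transfer_apply]
  exact Finset.sum_congr rfl fun i _ => by rw [h.cocycle_eq (e i)]

omit [Module R A] in
theorem comp_transfer {B S : Type*} [Semiring S] [AddCommGroup B] [Module S B] [Module R A]
    (g : A →+ B) (φ : Additive Γ →+ A) :
    g.comp (h.transfer R A φ) = h.transfer S B (g.comp φ) := by
  ext γ
  show g (∑ i, _) = ∑ i, _
  rw [map_sum]
  rfl

/-- The transfer preserves the homs killing a power- and conjugation-stable set. -/
theorem transfer_eq_zero (P : Γ → Prop) (hpow : ∀ γ n, P γ → P (γ ^ n))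
    (hconj : ∀ (x : G) (γ c : Γ), ι c = x * ι γ * x⁻¹ → P γ → P c)
    (φ : Additive Γ →+ A) (hφ : ∀ γ, P γ → φ (Additive.ofMul γ) = 0) (γ : Γ) (hγ : P γ) :
    h.transfer R A φ (Additive.ofMul γ) = 0 := by
  rw [h.transfer_apply]
  refine sum_eq_zero_of_periodic (h.permEquiv γ) _ fun i n hn => ?_
  obtain ⟨c, hc, hφc⟩ := h.step_pow γ i φ n
  rw [show (h.perm γ)^[n] i = i from hn] at hc
  refine hφc.symm.trans (hφ c (hconj (β i) (γ ^ n) c ?_ (hpow γ n hγ)))
  rw [eq_mul_inv_iff_mul_eq]
  exact hc.symm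

/-- Compatibility with an automorphism permuting the double coset. -/
theorem transfer_comp_auto (JG : G →* G) (J : Γ →* Γ) (hJ : ∀ γ, ι (J γ) = JG (ι γ))
    (π : Equiv.Perm I) (u : I → Γ) (hu : ∀ i, JG (β i) = ι (u i) * β (π i))
    (φ : Additive Γ →+ A) :
    (h.transfer R A φ).comp J.toAdditive = h.transfer R A (φ.comp J.toAdditive) := by
  ext γ
  obtain ⟨γ, rfl⟩ : ∃ g : Γ, Additive.ofMul g = γ := ⟨Additive.toMul γ, rfl⟩
  show h.transfer R A φ (Additive.ofMul (J γ)) = h.transfer R A _ (Additive.ofMul γ)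
  have step : ∀ i, β (π i) * ι (J γ)
      = ι ((u i)⁻¹ * J (h.cocycle γ i) * u (h.perm γ i)) * β (π (h.perm γ i)) := by
    intro i
    have e := congrArg JG (h.spec γ i)
    rw [map_mul, map_mul, ← hJ, ← hJ, hu, hu] at e
    rw [map_mul, map_mul, map_inv]
    rw [mul_assoc _ (ι (u (h.perm γ i))), mul_assoc (ι (u i))⁻¹, ← e, mul_assoc,
      inv_mul_cancel_left]
  rw [h.transfer_apply, ← Equiv.sum_comp π (fun i => φ (Additive.ofMul (h.cocycle (J γ) i))),
    h.transfer_apply]
  simp only [fun i => h.cocycle_eq (step i), ofMul_mul, ofMul_inv, map_add, map_neg,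
    Finset.sum_add_distrib, Finset.sum_neg_distrib]
  have hp : ∑ i, φ (Additive.ofMul (u (h.perm γ i))) = ∑ i, φ (Additive.ofMul (u i)) :=
    Equiv.sum_comp (h.permEquiv γ) (fun i => φ (Additive.ofMul (u i)))
  rw [hp]
  simp

omit h in
/-- A function with additive periods `φ` sums to a function with periods the transfer of `φ`. -/
theorem sum_periods {X : Type*} [MulAction G X] (h : IsCosetSystem ι β)
    (φ : Additive Γ →+ A) (F : X → A)
    (hF : ∀ γ x, F (ι γ • x) - F x = φ (Additive.ofMul γ)) (γ : Γ) (x : X) :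
    (∑ i, F (β i • ι γ • x)) - ∑ i, F (β i • x) = h.transfer R A φ (Additive.ofMul γ) := by
  have e : ∀ i, F (β i • ι γ • x)
      = φ (Additive.ofMul (h.cocycle γ i)) + F (β (h.perm γ i) • x) := by
    intro i
    rw [← mul_smul, h.spec, mul_smul, ← hF (h.cocycle γ i) (β (h.perm γ i) • x), sub_add_cancel]
  simp only [e, Finset.sum_add_distrib, h.transfer_apply]
  rw [show ∑ i, F (β (h.perm γ i) • x) = ∑ i, F (β i • x) from
    Equiv.sum_comp (h.permEquiv γ) (fun i => F (β i • x)), add_sub_cancel_right]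

end IsCosetSystem

end Fermat.Agent.HeckeCohom
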