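import Mathlib
import Fermat.Prelude.Def_ModularCurve_PeriodHomPair
import Fermat.Prelude.Def_ModularForm_HeckeOperator
import Fermat.Prelude.Thm_ModularForm_heckeT_slash_eq_self_of_mem_Gamma0
import Fermat.Agent.HeckeCohom.Transfer
import Fermat.Agent.ParHom.Defs

/-!
# Hecke operators on (parabolic) homomorphisms of `Γ₀(N)`

`heckeHom N R A ℓ` is `T_ℓ` for `ℓ ∤ N` and `U_ℓ` for `ℓ ∣ N`, acting on
`Hom(Γ₀(N), A)`; `heckePar` is its restriction to parabolic homomorphisms.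
-/

set_option autoImplicit false

noncomputable section

namespace Fermat.Agent.HeckeCohom

open CongruenceSubgroup ModularForm ModularCurve.Period Matrix.SpecialLinearGroup
open scoped MatrixGroups

variable (N : ℕ)

/-- `Γ₀(N)` inside `GL₂(ℝ)`. -/
def gamma0GL : Gamma0 N →* GL (Fin 2) ℝ :=
  (mapGL ℝ).comp (Gamma0 N).subtype

@[simp] theorem gamma0GL_apply (γ : Gamma0 N) :
    gamma0GL N γ = (mapGL ℝ (γ : SL(2, ℤ)) : GL (Fin 2) ℝ) := rfl

theorem gamma0GL_entry (γ : Gamma0 N) (i j : Fin 2) :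
    ((gamma0GL N γ : GL (Fin 2) ℝ) : Matrix (Fin 2) (Fin 2) ℝ) i j
      = (((γ : SL(2, ℤ)) i j : ℤ) : ℝ) := by
  simp [gamma0GL]

theorem dvd_apply_one_zero (γ : Gamma0 N) : (N : ℤ) ∣ (γ : SL(2, ℤ)) 1 0 :=
  (ZMod.intCast_zmod_eq_zero_iff_dvd _ _).mp (Gamma0_mem.mp γ.2)

/-- Index set of the double coset: `ZMod p`, together with `none` when `p ∤ N`. -/
abbrev HeckeIdx (p : ℕ) : Type := {x : Option (ZMod p) // x = none → ¬ p ∣ N}

/-- The coset representatives `(1 j; 0 p)` and `(p 0; 0 1)`. -/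
def heckeBeta (p : ℕ) (i : HeckeIdx N p) : GL (Fin 2) ℝ :=
  i.1.elim (heckeDiagMatrix p) (fun j => heckeMatrix p j.val)

/-- A sum over the representatives, written out. -/
theorem sum_heckeBeta {M : Type*} [AddCommMonoid M] (p : ℕ) [NeZero p]
    (F : GL (Fin 2) ℝ → M) :
    ∑ i : HeckeIdx N p, F (heckeBeta N p i)
      = (∑ j ∈ Finset.range p, F (heckeMatrix p j))
        + (if p ∣ N then 0 else F (heckeDiagMatrix p)) := by
  classical
  let G : Option (ZMod p) → M :=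
    fun x => F (x.elim (heckeDiagMatrix p) (fun j => heckeMatrix p j.val))
  have e : ∑ i : HeckeIdx N p, G i.1
      = ∑ x : Option (ZMod p), if x = none → ¬ p ∣ N then G x else 0 := by
    rw [← Finset.sum_filter]
    exact (Finset.sum_subtype _ (fun x => by simp) G).symm
  show ∑ i : HeckeIdx N p, G i.1 = _
  have e2 : ∑ j ∈ Finset.range p, F (heckeMatrix p j)
      = ∑ x : ZMod p, F (heckeMatrix p x.val) :=
    P2MW.S_ModularForm_heckeT_slash_eq_self_of_mem_Gamma0.ModularForm.HeckeSlashInvariance.sum_range_eq_sum_zmod _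
  rw [e, Fintype.sum_option, e2, add_comm]
  by_cases h : p ∣ N <;> simp [h, G]

theorem det_eq_one (g : SL(2, ℤ)) : g 0 0 * g 1 1 - g 0 1 * g 1 0 = 1 := by
  have h := g.det_coe
  rwa [Matrix.det_fin_two] at h

open P2MW.S_ModularForm_heckeT_slash_eq_self_of_mem_Gamma0.ModularForm in
theorem isCosetSystem (p : ℕ) [Fact p.Prime] : IsCosetSystem (gamma0GL N) (heckeBeta N p) where
  inj := mapGL_injective.comp Subtype.val_injective
  exists_step γ i := by
    obtain ⟨i, hi⟩ := i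
    haveI : NeZero p := ⟨(Fact.out : p.Prime).ne_zero⟩
    by_cases hpN : p ∣ N
    · rcases i with _ | x
      · exact absurd hpN (hi rfl)
      have hc : (p : ℤ) ∣ (γ : SL(2, ℤ)) 1 0 :=
        (Int.natCast_dvd_natCast.mpr hpN).trans (dvd_apply_one_zero N γ)
      obtain ⟨g', hg', hmul⟩ :=
        HeckeSlashInvariance.heckeMatrix_mul_of_dvd (γ : SL(2, ℤ)) hc x
      refine ⟨⟨g', ?_⟩, ⟨some _, by simp⟩, hmul⟩
      rw [Gamma0_mem, hg']
      push_cast
      rw [Gamma0_mem.mp γ.2, mul_zero]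
    · obtain ⟨g', hg', hmul⟩ := HeckeSlashInvariance.heckeRep_mul hpN (γ : SL(2, ℤ))
        (dvd_apply_one_zero N γ) i
      exact ⟨⟨g', Gamma0_mem.mpr ((ZMod.intCast_zmod_eq_zero_iff_dvd _ _).mpr hg')⟩,
        ⟨_, fun _ => hpN⟩, hmul⟩
  eq_of_eq c i j e := by
    haveI : NeZero p := ⟨(Fact.out : p.Prime).ne_zero⟩
    have hp : p ≠ 0 := NeZero.ne p
    have h2 : 2 ≤ p := (Fact.out : p.Prime).two_le
    obtain ⟨i, hi⟩ := i
    obtain ⟨j, hj⟩ := j
    have hd := det_eq_one (c : SL(2, ℤ))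
    have e' := congrArg (fun M : GL (Fin 2) ℝ => (M : Matrix (Fin 2) (Fin 2) ℝ)) e
    have e00 := congrFun (congrFun e' 0) 0
    have e01 := congrFun (congrFun e' 0) 1
    have e10 := congrFun (congrFun e' 1) 0
    apply Subtype.ext
    rcases i with _ | x <;> rcases j with _ | y <;>
      simp [heckeBeta, Matrix.mul_apply, Fin.sum_univ_two, hp, -ZMod.natCast_val] at e00 e01 e10 ⊢
    · norm_cast at e00 e10
      have hpd : (p : ℤ) ∣ 1 :=
        ⟨(c : SL(2, ℤ)) 1 1, by rw [e00]; linear_combination -hd + (c : SL(2, ℤ)) 0 1 * e10⟩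
      have := Int.le_of_dvd one_pos hpd
      omega
    · norm_cast at e00
      have hpd : (p : ℤ) ∣ 1 := ⟨(c : SL(2, ℤ)) 0 0, by linear_combination e00⟩
      have := Int.le_of_dvd one_pos hpd
      omega
    · norm_cast at e00
      rw [← e00] at e01
      push_cast at e01
      have e01' : ((x.val : ℕ) : ℤ) = y.val + (c : SL(2, ℤ)) 0 1 * p := by
        rw [← @Int.cast_inj ℝ]
        push_cast
        linear_combination e01
      have := congrArg (Int.cast : ℤ → ZMod p) e01'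
      simpa using this

/-- `T_ℓ` (`ℓ ∤ N`) or `U_ℓ` (`ℓ ∣ N`) on `Hom(Γ₀(N), A)`. -/
def heckeHom (R : Type*) [Semiring R] (A : Type*) [AddCommGroup A] [Module R A] (ℓ : Nat.Primes) :
    Module.End R (Additive (Gamma0 N) →+ A) :=
  haveI : Fact (ℓ : ℕ).Prime := ⟨ℓ.2⟩
  (isCosetSystem N ℓ).transfer R A

variable {N}

theorem comp_heckeHom {R S A B : Type*} [Semiring R] [Semiring S] [AddCommGroup A] [AddCommGroup B]
    [Module R A] [Module S B] (g : A →+ B) (ℓ : Nat.Primes) (φ : Additive (Gamma0 N) →+ A) :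
    g.comp (heckeHom N R A ℓ φ) = heckeHom N S B ℓ (g.comp φ) :=
  haveI : Fact (ℓ : ℕ).Prime := ⟨ℓ.2⟩
  (isCosetSystem N ℓ).comp_transfer g φ

/-- The operator computed from any system of witnesses. -/
theorem heckeHom_eq_sum {R A : Type*} [Semiring R] [AddCommGroup A] [Module R A] (ℓ : Nat.Primes)
    [NeZero (ℓ : ℕ)] (φ : Additive (Gamma0 N) →+ A) (γ : Gamma0 N)
    (c : HeckeIdx N ℓ → Gamma0 N) (σ : HeckeIdx N ℓ → HeckeIdx N ℓ)
    (e : ∀ i, heckeBeta N ℓ i * gamma0GL N γ = gamma0GL N (c i) * heckeBeta N ℓ (σ i)) :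
    heckeHom N R A ℓ φ (Additive.ofMul γ) = ∑ i, φ (Additive.ofMul (c i)) :=
  haveI : Fact (ℓ : ℕ).Prime := ⟨ℓ.2⟩
  (isCosetSystem N ℓ).transfer_eq_sum φ γ c σ e

/-- A function with periods `φ` sums over the cosets to one with periods `T φ`. -/
theorem sum_periods {R A X : Type*} [Semiring R] [AddCommGroup A] [Module R A]
    [MulAction (GL (Fin 2) ℝ) X] (ℓ : Nat.Primes) [NeZero (ℓ : ℕ)]
    (φ : Additive (Gamma0 N) →+ A) (F : X → A)
    (hF : ∀ γ x, F (gamma0GL N γ • x) - F x = φ (Additive.ofMul γ)) (γ : Gamma0 N) (x : X) :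
    (∑ i : HeckeIdx N ℓ, F (heckeBeta N ℓ i • gamma0GL N γ • x))
        - ∑ i : HeckeIdx N ℓ, F (heckeBeta N ℓ i • x)
      = heckeHom N R A ℓ φ (Additive.ofMul γ) :=
  haveI : Fact (ℓ : ℕ).Prime := ⟨ℓ.2⟩
  (isCosetSystem N ℓ).sum_periods φ F hF γ x

theorem trace_sq_pow {g : SL(2, ℤ)}
    (hg : (g : Matrix (Fin 2) (Fin 2) ℤ).trace ^ 2 = 4) (n : ℕ) :
    ((g ^ n : SL(2, ℤ)) : Matrix (Fin 2) (Fin 2) ℤ).trace ^ 2 = 4 := by
  set M := (g : Matrix (Fin 2) (Fin 2) ℤ) with hM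
  obtain ⟨t, ht, ht2⟩ : ∃ t : ℤ, M.trace = 2 * t ∧ t ^ 2 = 1 := by
    have h : (M.trace - 2) * (M.trace + 2) = 0 := by linear_combination hg
    rcases mul_eq_zero.mp h with h | h
    · exact ⟨1, by omega, by norm_num⟩
    · exact ⟨-1, by omega, by norm_num⟩
  have key : ∀ n : ℕ, (M ^ n).trace = 2 * t ^ n := by
    intro n
    induction n using Nat.twoStepInduction with
    | zero => simp
    | one => simpa using ht
    | more n h0 h1 =>
      have hsq : M ^ 2 = M.trace • M - 1 := by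
        have hd := det_eq_one g
        rw [pow_two]
        ext i j
        fin_cases i <;> fin_cases j <;>
          simp [hM, Matrix.mul_apply, Fin.sum_univ_two, Matrix.trace_fin_two, Matrix.smul_apply,
            -zsmul_eq_mul] <;>
          first | linear_combination -hd | ring
      rw [pow_add, hsq, mul_sub, mul_one, mul_smul_comm, Matrix.trace_sub, Matrix.trace_smul,
        ← pow_succ, smul_eq_mul, ht, h0, h1]
      linear_combination (2 * t ^ n) * ht2
  rw [Matrix.SpecialLinearGroup.coe_pow, ← hM, key, mul_pow, ← pow_mul, mul_comm n 2, pow_mul, ht2]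
  norm_num

theorem trace_eq_of_conj {x : GL (Fin 2) ℝ} {δ c : Gamma0 N}
    (hc : gamma0GL N c = x * gamma0GL N δ * x⁻¹) :
    ((c : SL(2, ℤ)) : Matrix (Fin 2) (Fin 2) ℤ).trace
      = ((δ : SL(2, ℤ)) : Matrix (Fin 2) (Fin 2) ℤ).trace := by
  have e : ((gamma0GL N c : GL (Fin 2) ℝ) : Matrix (Fin 2) (Fin 2) ℝ).trace
      = ((gamma0GL N δ : GL (Fin 2) ℝ) : Matrix (Fin 2) (Fin 2) ℝ).trace := by
    rw [hc, Units.val_mul, Units.val_mul, Matrix.trace_units_conj]
  simp only [Matrix.trace_fin_two, gamma0GL_entry] at e ⊢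
  exact_mod_cast e

theorem heckeHom_mem_parabolicHoms {R A : Type*} [Semiring R] [AddCommGroup A] [Module R A]
    (ℓ : Nat.Primes) {φ : Additive (Gamma0 N) →+ A}
    (hφ : φ ∈ parabolicHoms R (Gamma0 N) A) :
    heckeHom N R A ℓ φ ∈ parabolicHoms R (Gamma0 N) A := by
  haveI : Fact (ℓ : ℕ).Prime := ⟨ℓ.2⟩
  intro γ hγ
  refine (isCosetSystem N ℓ).transfer_eq_zero
    (fun δ : Gamma0 N => ((δ : SL(2, ℤ)) : Matrix (Fin 2) (Fin 2) ℤ).trace ^ 2 = 4)
    (fun δ n hδ => by simpa using trace_sq_pow hδ n) ?_ φ hφ γ hγ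
  intro x δ c hc hδ
  rw [trace_eq_of_conj hc]
  exact hδ

theorem trace_sq_pow_le {g : SL(2, ℤ)}
    (hg : (g : Matrix (Fin 2) (Fin 2) ℤ).trace ^ 2 ≤ 4) (n : ℕ) :
    ((g ^ n : SL(2, ℤ)) : Matrix (Fin 2) (Fin 2) ℤ).trace ^ 2 ≤ 4 := by
  rcases hg.lt_or_eq with hlt | heq
  · set M := (g : Matrix (Fin 2) (Fin 2) ℤ) with hM
    have hsq : M ^ 2 = M.trace • M - 1 := by
      have hd := det_eq_one g
      rw [pow_two]
      ext i j
      fin_cases i <;> fin_cases j <;>
        simp [hM, Matrix.mul_apply, Fin.sum_univ_two, Matrix.trace_fin_two, Matrix.smul_apply,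
          -zsmul_eq_mul] <;>
        first | linear_combination -hd | ring
    have hrec : ∀ m : ℕ, (M ^ (m + 2)).trace = M.trace * (M ^ (m + 1)).trace - (M ^ m).trace := by
      intro m
      rw [pow_add, hsq, mul_sub, mul_one, mul_smul_comm, Matrix.trace_sub, Matrix.trace_smul,
        ← pow_succ, smul_eq_mul]
    have hinv : ∀ m : ℕ, (2 * (M ^ (m + 1)).trace - M.trace * (M ^ m).trace) ^ 2
        + (4 - M.trace ^ 2) * (M ^ m).trace ^ 2 = 4 * (4 - M.trace ^ 2) := by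
      intro m
      induction m with
      | zero => simp; ring
      | succ m ih =>
        rw [hrec m]
        linear_combination ih
    rw [Matrix.SpecialLinearGroup.coe_pow, ← hM]
    nlinarith [hinv n, sq_nonneg (2 * (M ^ (n + 1)).trace - M.trace * (M ^ n).trace)]
  · exact (trace_sq_pow heq n).le

theorem heckeHom_mem_parEllHoms {R A : Type*} [Semiring R] [AddCommGroup A] [Module R A]
    (ℓ : Nat.Primes) {φ : Additive (Gamma0 N) →+ A}
    (hφ : φ ∈ ParHom.parEllHoms (Gamma0 N) R A) :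
    heckeHom N R A ℓ φ ∈ ParHom.parEllHoms (Gamma0 N) R A := by
  haveI : Fact (ℓ : ℕ).Prime := ⟨ℓ.2⟩
  intro γ hγ
  refine (isCosetSystem N ℓ).transfer_eq_zero
    (fun δ : Gamma0 N => ParHom.tr (δ : SL(2, ℤ)) ^ 2 ≤ 4)
    (fun δ n hδ => by simpa [ParHom.tr] using trace_sq_pow_le hδ n) ?_ φ hφ γ hγ
  intro x δ c hc hδ
  rw [ParHom.tr, trace_eq_of_conj hc]
  exact hδ

variable (N)

/-- `T_ℓ` or `U_ℓ` on parabolic homomorphisms. -/
def heckePar (R : Type*) [Semiring R] (A : Type*) [AddCommGroup A] [Module R A] (ℓ : Nat.Primes) :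
    Module.End R (parabolicHoms R (Gamma0 N) A) :=
  (heckeHom N R A ℓ).restrict fun _ hφ => heckeHom_mem_parabolicHoms ℓ hφ

@[simp] theorem coe_heckePar_apply {R A : Type*} [Semiring R] [AddCommGroup A] [Module R A]
    (ℓ : Nat.Primes) (φ : parabolicHoms R (Gamma0 N) A) :
    (heckePar N R A ℓ φ : Additive (Gamma0 N) →+ A)
      = heckeHom N R A ℓ (φ : Additive (Gamma0 N) →+ A) := rfl

/-- `T_ℓ` or `U_ℓ` on parabolic-elliptic homomorphisms. -/
def heckeParEll (R : Type*) [Semiring R] (A : Type*) [AddCommGroup A] [Module R A]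
    (ℓ : Nat.Primes) : Module.End R (ParHom.parEllHoms (Gamma0 N) R A) :=
  (heckeHom N R A ℓ).restrict fun _ hφ => heckeHom_mem_parEllHoms ℓ hφ

@[simp] theorem coe_heckeParEll_apply {R A : Type*} [Semiring R] [AddCommGroup A] [Module R A]
    (ℓ : Nat.Primes) (φ : ParHom.parEllHoms (Gamma0 N) R A) :
    (heckeParEll N R A ℓ φ : Additive (Gamma0 N) →+ A)
      = heckeHom N R A ℓ (φ : Additive (Gamma0 N) →+ A) := rfl

/-- `diag (-1, 1)`. -/
def jGL : GL (Fin 2) ℝ := upperTriangularGL (-1) 0 1 (by norm_num)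

/-- `T` commutes with the involution induced by `γ ↦ ε γ ε`. -/
theorem charInvolution_heckeHom {R A : Type*} [Semiring R] [AddCommGroup A] [Module R A]
    (ℓ : Nat.Primes) (φ : Additive (Gamma0 N) →+ A) :
    charInvolution N R A (heckeHom N R A ℓ φ) = heckeHom N R A ℓ (charInvolution N R A φ) := by
  haveI : Fact (ℓ : ℕ).Prime := ⟨ℓ.2⟩
  haveI : NeZero (ℓ : ℕ) := ⟨ℓ.2.ne_zero⟩
  have hp : (ℓ : ℕ) ≠ 0 := ℓ.2.ne_zero
  let π : Equiv.Perm (HeckeIdx N ℓ) :=
    { toFun := fun i => ⟨i.1.map Neg.neg, fun hi => i.2 (Option.map_eq_none_iff.mp hi)⟩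
      invFun := fun i => ⟨i.1.map Neg.neg, fun hi => i.2 (Option.map_eq_none_iff.mp hi)⟩
      left_inv := fun i => by apply Subtype.ext; rcases i with ⟨_ | x, _⟩ <;> simp
      right_inv := fun i => by apply Subtype.ext; rcases i with ⟨_ | x, _⟩ <;> simp }
  have hu : ∀ i : HeckeIdx N ℓ, ∃ u : Gamma0 N,
      jGL * heckeBeta N ℓ i * jGL⁻¹ = gamma0GL N u * heckeBeta N ℓ (π i) := by
    rintro ⟨_ | x, hx⟩
    · refine ⟨1, ?_⟩
      rw [map_one, one_mul, mul_inv_eq_iff_eq_mul]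
      ext a b
      fin_cases a <;> fin_cases b <;>
        simp [π, jGL, heckeBeta, Matrix.mul_apply, Fin.sum_univ_two, hp]
    · obtain ⟨t, ht⟩ : ((ℓ : ℕ) : ℤ) ∣ -(x.val : ℤ) - (-x).val := by
        rw [← ZMod.intCast_zmod_eq_zero_iff_dvd]
        simp
      have htR := congrArg (Int.cast : ℤ → ℝ) ht
      push_cast at htR
      let u : SL(2, ℤ) := ⟨!![1, t; 0, 1], by simp [Matrix.det_fin_two_of]⟩
      have hmem : u ∈ Gamma0 N := Gamma0_mem.mpr (by simp [u])
      refine ⟨⟨u, hmem⟩, ?_⟩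
      have hU := gamma0GL_entry N ⟨u, hmem⟩
      have h00 : u 0 0 = 1 := rfl
      have h01 : u 0 1 = t := rfl
      have h10 : u 1 0 = 0 := rfl
      have h11 : u 1 1 = 1 := rfl
      rw [mul_inv_eq_iff_eq_mul]
      ext a b
      fin_cases a <;> fin_cases b <;>
        simp [π, jGL, heckeBeta, Matrix.mul_apply, Fin.sum_univ_two, hp, -ZMod.natCast_val,
          -gamma0GL_apply, hU, h00, h01, h10, h11]
      linear_combination htR
  choose u hu using hu
  refine (isCosetSystem N ℓ).transfer_comp_auto (R := R) (MulAut.conj jGL).toMonoidHom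
    (jConjGamma0 N) ?_ π u hu φ
  intro γ
  show gamma0GL N (jConjGamma0 N γ) = jGL * gamma0GL N γ * jGL⁻¹
  rw [eq_mul_inv_iff_mul_eq]
  ext a b
  fin_cases a <;> fin_cases b <;>
    simp [jGL, Matrix.mul_apply, Fin.sum_univ_two]

end Fermat.Agent.HeckeCohom
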