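import Mathlib
import Fermat.Prelude.Def_CuspForm_HeckeEvalForms
import Fermat.Prelude.Def_ModularCurve_PeriodHomPair
import Fermat.Agent.Periods.Injective
import Fermat.Agent.HeckeCohom.Operators

/-!
# Periods intertwine the Hecke operators
-/

set_option autoImplicit false

noncomputable section

namespace Fermat.Agent.HeckeCohom

open CongruenceSubgroup ModularForm ModularCurve ModularCurve.Period UpperHalfPlane
open scoped MatrixGroups

variable {N : ℕ}

/-- If `F` is a primitive of `f` then `F (g • ·)` is one of `f (g • τ) det g / (c τ + d) ^ 2`. -/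
theorem hasDerivAt_comp_smul {f F : ℍ → ℂ} (h : Periods.IsPrimitive f F) (g : GL (Fin 2) ℝ)
    (hdet : 0 < g.val.det) (τ : ℍ) :
    HasDerivAt ((fun w : ℍ => F (g • w)) ∘ ofComplex)
      (f (g • τ) * ((g.val.det : ℂ) / denom g τ ^ 2)) (τ : ℂ) := by
  have hs := (hasStrictDerivAt_smul hdet τ).hasDerivAt
  have hcomp := HasDerivAt.comp (τ : ℂ) (h₂ := F ∘ ofComplex)
    (h := fun z : ℂ => ((g • ofComplex z : ℍ) : ℂ)) (h₂' := f (g • τ))
    (by simpa using h (g • τ)) hs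
  have heq : (fun w : ℍ => F (g • w)) ∘ ofComplex
      = (F ∘ ofComplex) ∘ fun z : ℂ => ((g • ofComplex z : ℍ) : ℂ) := by
    funext z; simp
  rw [heq]
  exact hcomp

variable [NeZero N]

/-- The operator `T_ℓ` or `U_ℓ` on weight two cusp forms of level `N`. -/
def formOp (N : ℕ) [NeZero N] (ℓ : Nat.Primes) : Module.End ℂ (CuspForm (Gamma0 N) 2) :=
  ((CuspForm.heckeFormsGen N 2 ℓ : CuspForm.heckeAlgebra N 2 ∅) :
    Module.End ℂ (CuspForm (Gamma0 N) 2))

theorem formOp_of_dvd {ℓ : Nat.Primes} (h : (ℓ : ℕ) ∣ N) :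
    formOp N ℓ = CuspForm.heckeULin 2 h := by
  rw [formOp, CuspForm.heckeFormsGen_of_dvd h]; rfl

theorem formOp_of_not_dvd {ℓ : Nat.Primes} (h : ¬ (ℓ : ℕ) ∣ N) :
    formOp N ℓ = CuspForm.heckeTLin 2 ℓ.2 h := by
  rw [formOp, CuspForm.heckeFormsGen_of_not_dvd h]; rfl

/-- The formula for `formOp` as a sum over the coset representatives. -/
theorem formOp_apply (ℓ : Nat.Primes) [NeZero (ℓ : ℕ)] (f : CuspForm (Gamma0 N) 2) (τ : ℍ) :
    formOp N ℓ f τ = ∑ i : HeckeIdx N ℓ, f (heckeBeta N ℓ i • τ) *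
      (((heckeBeta N ℓ i).val.det : ℂ) / denom (heckeBeta N ℓ i) τ ^ 2) := by
  have hp : (ℓ : ℕ) ≠ 0 := ℓ.2.ne_zero
  have hpC : ((ℓ : ℕ) : ℂ) ≠ 0 := Nat.cast_ne_zero.mpr hp
  rw [sum_heckeBeta N (ℓ : ℕ)
    (fun g => f (g • τ) * ((g.val.det : ℂ) / denom g τ ^ 2))]
  have hU : ∀ j : ℕ, f (heckeMatrix (ℓ : ℕ) j • τ) *
      (((heckeMatrix (ℓ : ℕ) j).val.det : ℂ) / denom (heckeMatrix (ℓ : ℕ) j) τ ^ 2)
        = ((ℓ : ℕ) : ℂ)⁻¹ * f (heckeMatrix (ℓ : ℕ) j • τ) := by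
    intro j
    rw [denom_heckeMatrix hp, val_heckeMatrix hp, Matrix.det_fin_two_of]
    push_cast
    field_simp
    ring
  have hD : f (heckeDiagMatrix (ℓ : ℕ) • τ) *
      (((heckeDiagMatrix (ℓ : ℕ)).val.det : ℂ) / denom (heckeDiagMatrix (ℓ : ℕ)) τ ^ 2)
        = ((ℓ : ℕ) : ℂ) ^ ((2 : ℤ) - 1) * f (heckeDiagMatrix (ℓ : ℕ) • τ) := by
    rw [denom_heckeDiagMatrix hp, val_heckeDiagMatrix hp, Matrix.det_fin_two_of]
    norm_num
    ring
  simp only [hU, hD, ← Finset.mul_sum]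
  by_cases h : (ℓ : ℕ) ∣ N
  · rw [formOp_of_dvd h, CuspForm.heckeULin_apply_apply, heckeU_apply 2 hp, if_pos h, add_zero]
  · rw [formOp_of_not_dvd h, CuspForm.heckeTLin_apply_apply, heckeT_apply 2 hp, if_neg h]

/-- Periods intertwine `T_ℓ` on forms with `T_ℓ` on homomorphisms. -/
theorem periodMap_formOp (ℓ : Nat.Primes) (f : CuspForm (Gamma0 N) 2) :
    periodMap N (formOp N ℓ f) = heckeHom N ℂ ℂ ℓ (periodMap N f) := by
  haveI : NeZero (ℓ : ℕ) := ⟨ℓ.2.ne_zero⟩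
  obtain ⟨F, hF⟩ := Periods.exists_hasEquivariantPrimitive f
  have hG : Periods.IsPrimitive (formOp N ℓ f)
      (fun w => ∑ i : HeckeIdx N ℓ, F (heckeBeta N ℓ i • w)) := by
    intro τ
    rw [formOp_apply]
    have hdet : ∀ i : HeckeIdx N ℓ, 0 < (heckeBeta N ℓ i).val.det := by
      rintro ⟨_ | x, hi⟩
      · simpa [heckeBeta] using det_heckeDiagMatrix_pos (ℓ : ℕ)
      · simpa [heckeBeta] using det_heckeMatrix_pos (ℓ : ℕ) x.val
    have := HasDerivAt.fun_sum (u := (Finset.univ : Finset (HeckeIdx N ℓ)))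
      (fun i _ => hasDerivAt_comp_smul hF.1 (heckeBeta N ℓ i) (hdet i) τ)
    exact this
  refine AddMonoidHom.ext fun a => ?_
  obtain ⟨γ, rfl⟩ := Additive.ofMul.surjective a
  rw [Periods.periodMap_apply _ hG γ UpperHalfPlane.I]
  exact sum_periods ℓ (periodMap N f) F
    (fun δ x => (Periods.periodMap_apply f hF.1 δ x).symm) γ UpperHalfPlane.I

/-- The period pairing intertwines the Hecke operators. -/
theorem periodHomPair_formOp (ℓ : Nat.Primes)
    (x : CuspForm (Gamma0 N) 2 × CuspForm (Gamma0 N) 2) :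
    periodHomPair N (formOp N ℓ x.1, formOp N ℓ x.2)
      = heckeHom N ℂ ℂ ℓ (periodHomPair N x) := by
  obtain ⟨f, g⟩ := x
  simp only [Periods.periodHomPair_apply, periodMap_formOp, map_add, map_sub,
    charInvolution_heckeHom]

end Fermat.Agent.HeckeCohom
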