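import Mathlib
import Fermat.Agent.HeckeCohom.Periods
import Fermat.Agent.ParHom.Gamma0
import Fermat.Agent.DimLower.Main

/-!
# The weight two Hecke algebra acting on parabolic homomorphisms

`heckeAct N R A : heckeAlgebra N 2 ∅ →ₐ[ℤ] End_R (H_A)` sends `T_ℓ`, `U_ℓ` to `heckeParEll`.
It is natural in `A`, and injective for `A = ℤ`.
-/

set_option autoImplicit false

noncomputable section

namespace Fermat.Agent.HeckeCohom

open CongruenceSubgroup ModularCurve ModularCurve.Period CuspForm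
open scoped MatrixGroups

variable (N : ℕ) [NeZero N]

/-- The number of generators, `2 g`. -/
abbrev rk : ℕ := ParHom.parRank (Gamma0 N)

/-- The distinguished elements of `Γ₀(N)`. -/
def gen (i : Fin (rk N)) : Gamma0 N :=
  ParHom.parGen (ParHom.neg_one_mem_Gamma0 N) i

/-- The basis of the integral parabolic homomorphisms dual to `gen`. -/
def basisHom (i : Fin (rk N)) : ParHom.parEllHoms (Gamma0 N) ℤ ℤ :=
  (ParHom.parEquiv (ParHom.neg_one_mem_Gamma0 N) ℤ ℤ).symm (Pi.single i 1)

theorem basisHom_gen (i j : Fin (rk N)) :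
    (basisHom N i : Additive (Gamma0 N) →+ ℤ) (Additive.ofMul (gen N j)) =
      (Pi.single i 1 : Fin (rk N) → ℤ) j :=
  congrFun ((ParHom.parEquiv (ParHom.neg_one_mem_Gamma0 N) ℤ ℤ).apply_symm_apply (Pi.single i 1)) j

variable {N}

/-- Every parabolic homomorphism is a combination of the integral basis. -/
theorem decomp {A : Type*} [AddCommGroup A] {φ : Additive (Gamma0 N) →+ A}
    (hφ : ParHom.IsParEllHom (Gamma0 N) φ) :
    φ = ∑ i, (zmultiplesHom A (φ (Additive.ofMul (gen N i)))).comp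
      (basisHom N i : Additive (Gamma0 N) →+ ℤ) := by
  refine ParHom.IsParEllHom.ext_parGen (ParHom.neg_one_mem_Gamma0 N) hφ
    (ParHom.mem_parEllHoms.mp (sum_mem fun i _ =>
      (ParHom.mem_parEllHoms (R := ℤ)).mpr (ParHom.IsParEllHom.comp (basisHom N i).2 _))) fun j => ?_
  change φ (Additive.ofMul (gen N j)) = _
  rw [AddMonoidHom.finsetSum_apply, Finset.sum_eq_single j]
  · change _ = zmultiplesHom A _ ((basisHom N j : Additive (Gamma0 N) →+ ℤ) (Additive.ofMul (gen N j)))
    simp [basisHom_gen]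
  · intro i _ hij
    change zmultiplesHom A _ ((basisHom N i : Additive (Gamma0 N) →+ ℤ) (Additive.ofMul (gen N j))) = 0
    simp [basisHom_gen, hij.symm]
  · simp

/-- `decomp` for integral homomorphisms, as an identity in the module. -/
theorem decomp_int (φ : ParHom.parEllHoms (Gamma0 N) ℤ ℤ) :
    φ = ∑ i, (φ : Additive (Gamma0 N) →+ ℤ) (Additive.ofMul (gen N i)) • basisHom N i := by
  refine Subtype.ext ((decomp φ.2).trans ?_)
  rw [AddSubmonoidClass.coe_finsetSum]
  refine Finset.sum_congr rfl fun i _ => AddMonoidHom.ext fun a => ?_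
  simp [mul_comm]

section Extend

variable (R : Type*) [Ring R] (A : Type*) [AddCommGroup A] [Module R A]

/-- Base change of an endomorphism of the integral parabolic homomorphisms. -/
def extendEnd (T : Module.End ℤ (ParHom.parEllHoms (Gamma0 N) ℤ ℤ)) :
    Module.End R (ParHom.parEllHoms (Gamma0 N) R A) where
  toFun φ := ⟨∑ i, (zmultiplesHom A ((φ : Additive (Gamma0 N) →+ A) (Additive.ofMul (gen N i)))).comp
      (T (basisHom N i) : Additive (Gamma0 N) →+ ℤ),
    sum_mem fun i _ => ParHom.mem_parEllHoms.mpr (ParHom.IsParEllHom.comp (T (basisHom N i)).2 _)⟩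
  map_add' φ ψ := by
    refine Subtype.ext (AddMonoidHom.ext fun a => ?_)
    simp [smul_add, Finset.sum_add_distrib]
  map_smul' r φ := by
    refine Subtype.ext (AddMonoidHom.ext fun a => ?_)
    simp only [RingHom.id_apply, SetLike.val_smul, AddMonoidHom.finsetSum_apply,
      AddMonoidHom.comp_apply, AddMonoidHom.smul_apply, zmultiplesHom_apply, Finset.smul_sum]
    exact Finset.sum_congr rfl fun i _ => smul_comm _ _ _

variable {R A}

theorem coe_extendEnd (T : Module.End ℤ (ParHom.parEllHoms (Gamma0 N) ℤ ℤ))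
    (φ : ParHom.parEllHoms (Gamma0 N) R A) :
    (extendEnd R A T φ : Additive (Gamma0 N) →+ A) = ∑ i,
      (zmultiplesHom A ((φ : Additive (Gamma0 N) →+ A) (Additive.ofMul (gen N i)))).comp
        (T (basisHom N i) : Additive (Gamma0 N) →+ ℤ) := rfl

/-- The defining property of `extendEnd`. -/
theorem extendEnd_comp (T : Module.End ℤ (ParHom.parEllHoms (Gamma0 N) ℤ ℤ)) (g : ℤ →+ A)
    (e : ParHom.parEllHoms (Gamma0 N) ℤ ℤ) :
    (extendEnd R A T ⟨g.comp (e : Additive (Gamma0 N) →+ ℤ),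
        ParHom.mem_parEllHoms.mpr (ParHom.IsParEllHom.comp e.2 g)⟩ : Additive (Gamma0 N) →+ A)
      = g.comp (T e : Additive (Gamma0 N) →+ ℤ) := by
  conv_rhs => rw [decomp_int e]
  rw [coe_extendEnd, map_sum, AddSubmonoidClass.coe_finsetSum]
  refine AddMonoidHom.ext fun a => ?_
  simp only [AddMonoidHom.finsetSum_apply, AddMonoidHom.comp_apply, map_sum]
  refine Finset.sum_congr rfl fun i _ => ?_
  simp only [map_zsmul, SetLike.val_smul, AddMonoidHom.smul_apply, zmultiplesHom_apply]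
  rw [← map_zsmul g, ← map_zsmul g, smul_eq_mul, smul_eq_mul, mul_comm]

variable (R A)

theorem extendEnd_one : extendEnd (N := N) R A 1 = 1 :=
  LinearMap.ext fun φ => Subtype.ext ((coe_extendEnd 1 φ).trans (decomp φ.2).symm)

theorem extendEnd_add (S T : Module.End ℤ (ParHom.parEllHoms (Gamma0 N) ℤ ℤ)) :
    extendEnd R A (S + T) = extendEnd R A S + extendEnd R A T := by
  refine LinearMap.ext fun φ => Subtype.ext (AddMonoidHom.ext fun a => ?_)
  simp [coe_extendEnd, add_smul, Finset.sum_add_distrib]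

theorem extendEnd_mul (S T : Module.End ℤ (ParHom.parEllHoms (Gamma0 N) ℤ ℤ)) :
    extendEnd R A (S * T) = extendEnd R A S * extendEnd R A T := by
  refine LinearMap.ext fun φ => Subtype.ext ?_
  have e : extendEnd R A T φ = ∑ i,
      (⟨(zmultiplesHom A ((φ : Additive (Gamma0 N) →+ A) (Additive.ofMul (gen N i)))).comp
          (T (basisHom N i) : Additive (Gamma0 N) →+ ℤ),
        ParHom.mem_parEllHoms.mpr (ParHom.IsParEllHom.comp (T (basisHom N i)).2 _)⟩ :
        ParHom.parEllHoms (Gamma0 N) R A) :=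
    Subtype.ext (by rw [AddSubmonoidClass.coe_finsetSum]; rfl)
  rw [Module.End.mul_apply, e, map_sum, AddSubmonoidClass.coe_finsetSum]
  simp only [extendEnd_comp]
  rfl

/-- `extendEnd` as a ring homomorphism. -/
def extendHom : Module.End ℤ (ParHom.parEllHoms (Gamma0 N) ℤ ℤ) →+*
    Module.End R (ParHom.parEllHoms (Gamma0 N) R A) :=
  RingHom.mk' ⟨⟨extendEnd R A, extendEnd_one R A⟩, extendEnd_mul R A⟩ (extendEnd_add R A)

theorem extendEnd_heckeParEll (ℓ : Nat.Primes) :
    extendEnd R A (heckeParEll N ℤ ℤ ℓ) = heckeParEll N R A ℓ := by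
  refine LinearMap.ext fun φ => Subtype.ext ?_
  conv_rhs => rw [coe_heckeParEll_apply, decomp φ.2, map_sum]
  rw [coe_extendEnd]
  exact Finset.sum_congr rfl fun i _ =>
    comp_heckeHom (R := ℤ) (A := ℤ) (S := R) (B := A) _ ℓ _

theorem comp_extendEnd {B S : Type*} [Ring S] [AddCommGroup B] [Module S B] (g : A →+ B)
    (T : Module.End ℤ (ParHom.parEllHoms (Gamma0 N) ℤ ℤ))
    (φ : ParHom.parEllHoms (Gamma0 N) R A) :
    g.comp (extendEnd R A T φ : Additive (Gamma0 N) →+ A) =
      (extendEnd S B T ⟨g.comp (φ : Additive (Gamma0 N) →+ A),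
        ParHom.mem_parEllHoms.mpr (ParHom.IsParEllHom.comp φ.2 g)⟩ :
          Additive (Gamma0 N) →+ B) := by
  refine AddMonoidHom.ext fun a => ?_
  simp [coe_extendEnd, map_sum, map_zsmul]

end Extend

/-! ### Integrality: the Hecke algebra preserves the lattice of integral periods -/

variable (N)

/-- The range of the period pairing. -/
theorem range_periodHomPair :
    LinearMap.range (periodHomPair N) = parabolicHoms ℂ (Gamma0 N) ℂ := by
  haveI := ParHom.finiteDimensional_parabolicHoms (Γ := Gamma0 N) (ParHom.neg_one_mem_Gamma0 N) ℂ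
  refine Periods.range_periodHomPair_eq_of_finrank_le N (le_of_eq ?_)
  have h1 := ParHom.finrank_parabolicHoms_Gamma0 N
  have h2 := DimLower.finrank_cuspForm_two_eq_genusFormula N
  rw [← h2] at h1
  exact_mod_cast h1

variable {N}

/-- An integral homomorphism as a complex one. -/
def castHom (φ : Additive (Gamma0 N) →+ ℤ) : Additive (Gamma0 N) →+ ℂ :=
  (Int.castAddHom ℂ).comp φ

omit [NeZero N] in
theorem castHom_injective : Function.Injective (castHom (N := N)) := fun φ ψ h =>
  AddMonoidHom.ext fun a => Int.cast_injective (α := ℂ) (DFunLike.congr_fun h a)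

theorem exists_periodHomPair_eq_castHom (φ : ParHom.parEllHoms (Gamma0 N) ℤ ℤ) :
    ∃ x, periodHomPair N x = castHom (φ : Additive (Gamma0 N) →+ ℤ) := by
  rw [← LinearMap.mem_range, range_periodHomPair N]
  exact (ParHom.mem_parEllHoms.mp φ.2 |>.comp (Int.castAddHom ℂ)).isParabolicHom

/-- `t` on forms corresponds to `T` on integral parabolic homomorphisms. -/
def Rel (t : Module.End ℂ (CuspForm (Gamma0 N) 2))
    (T : Module.End ℤ (ParHom.parEllHoms (Gamma0 N) ℤ ℤ)) : Prop :=
  ∀ (x : CuspForm (Gamma0 N) 2 × CuspForm (Gamma0 N) 2) (φ : ParHom.parEllHoms (Gamma0 N) ℤ ℤ),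
    periodHomPair N x = castHom (φ : Additive (Gamma0 N) →+ ℤ) →
      periodHomPair N (t x.1, t x.2) = castHom (T φ : Additive (Gamma0 N) →+ ℤ)

theorem rel_algebraMap (n : ℤ) :
    Rel (N := N) (algebraMap ℤ _ n) (algebraMap ℤ _ n) := by
  intro x φ h
  rw [Module.algebraMap_end_apply, Module.algebraMap_end_apply, Module.algebraMap_end_apply,
    ← Prod.smul_mk n x.1 x.2, map_zsmul, h]
  refine AddMonoidHom.ext fun a => ?_
  simp [castHom]

theorem Rel.add {t s : Module.End ℂ (CuspForm (Gamma0 N) 2)}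
    {T S : Module.End ℤ (ParHom.parEllHoms (Gamma0 N) ℤ ℤ)} (ht : Rel t T) (hs : Rel s S) :
    Rel (t + s) (T + S) := by
  intro x φ h
  rw [LinearMap.add_apply, LinearMap.add_apply, ← Prod.mk_add_mk, map_add, ht x φ h, hs x φ h]
  refine AddMonoidHom.ext fun a => ?_
  simp [castHom]

theorem Rel.mul {t s : Module.End ℂ (CuspForm (Gamma0 N) 2)}
    {T S : Module.End ℤ (ParHom.parEllHoms (Gamma0 N) ℤ ℤ)} (ht : Rel t T) (hs : Rel s S) :
    Rel (t * s) (T * S) :=
  fun x φ h => ht (s x.1, s x.2) (S φ) (hs x φ h)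

theorem rel_formOp (ℓ : Nat.Primes) : Rel (N := N) (formOp N ℓ) (heckeParEll N ℤ ℤ ℓ) := by
  intro x φ h
  rw [periodHomPair_formOp, h, coe_heckeParEll_apply]
  exact (comp_heckeHom _ ℓ _).symm

theorem exists_rel {t : Module.End ℂ (CuspForm (Gamma0 N) 2)} (ht : t ∈ heckeAlgebra N 2 ∅) :
    ∃ T, Rel t T := by
  induction ht using Algebra.adjoin_induction with
  | mem t ht =>
    rcases ht with ⟨ℓ, hℓ, hℓN, -, rfl⟩ | ⟨q, hqN, hq, -, rfl⟩
    · exact ⟨_, formOp_of_not_dvd (ℓ := ⟨ℓ, hℓ⟩) hℓN ▸ rel_formOp ⟨ℓ, hℓ⟩⟩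
    · exact ⟨_, formOp_of_dvd (ℓ := ⟨q, hq⟩) hqN ▸ rel_formOp ⟨q, hq⟩⟩
  | algebraMap n => exact ⟨_, rel_algebraMap n⟩
  | add t s _ _ iht ihs =>
    obtain ⟨T, hT⟩ := iht; obtain ⟨S, hS⟩ := ihs
    exact ⟨_, hT.add hS⟩
  | mul t s _ _ iht ihs =>
    obtain ⟨T, hT⟩ := iht; obtain ⟨S, hS⟩ := ihs
    exact ⟨_, hT.mul hS⟩

theorem Rel.unique {t : Module.End ℂ (CuspForm (Gamma0 N) 2)}
    {T S : Module.End ℤ (ParHom.parEllHoms (Gamma0 N) ℤ ℤ)} (hT : Rel t T) (hS : Rel t S) :
    T = S := by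
  refine LinearMap.ext fun φ => Subtype.ext (castHom_injective ?_)
  obtain ⟨x, hx⟩ := exists_periodHomPair_eq_castHom φ
  exact (hT x φ hx).symm.trans (hS x φ hx)

theorem Rel.unique_left {t s : Module.End ℂ (CuspForm (Gamma0 N) 2)}
    {T : Module.End ℤ (ParHom.parEllHoms (Gamma0 N) ℤ ℤ)} (ht : Rel t T) (hs : Rel s T) :
    t = s := by
  refine LinearMap.ext fun f => ?_
  choose y hy using fun i => exists_periodHomPair_eq_castHom (basisHom N i)
  have hmem : ParHom.IsParEllHom (Gamma0 N) (periodHomPair N (f, 0)) :=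
    ParHom.isParabolicHom_iff.mp
      ((range_periodHomPair N).le ⟨(f, 0), rfl⟩)
  have hx : (f, (0 : CuspForm (Gamma0 N) 2))
      = ∑ i, periodHomPair N (f, 0) (Additive.ofMul (gen N i)) • y i := by
    apply Periods.periodHomPair_injective N
    rw [map_sum]
    refine (decomp hmem).trans (Finset.sum_congr rfl fun i _ => ?_)
    rw [map_smul, hy]
    refine AddMonoidHom.ext fun a => ?_
    simp [castHom, mul_comm]
  have hy' : ∀ i, (t (y i).1, t (y i).2) = (s (y i).1, s (y i).2) := fun i =>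
    Periods.periodHomPair_injective N ((ht _ _ (hy i)).trans (hs _ _ (hy i)).symm)
  have hf := congrArg Prod.fst hx
  simp only [Prod.fst_sum, Prod.smul_fst] at hf
  rw [hf, map_sum, map_sum]
  refine Finset.sum_congr rfl fun i _ => ?_
  rw [map_smul, map_smul]
  exact congrArg (_ • ·) (Prod.ext_iff.mp (hy' i)).1

variable (N)

/-- The Hecke algebra acting on the integral parabolic homomorphisms. -/
def heckeActZ :
    heckeAlgebra N 2 ∅ →ₐ[ℤ] Module.End ℤ (ParHom.parEllHoms (Gamma0 N) ℤ ℤ) :=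
  have hspec : ∀ t : heckeAlgebra N 2 ∅, Rel t.1 (exists_rel t.2).choose :=
    fun t => (exists_rel t.2).choose_spec
  { toFun := fun t => (exists_rel t.2).choose
    map_one' := (hspec 1).unique fun _ _ h => h
    map_mul' := fun t s => (hspec (t * s)).unique ((hspec t).mul (hspec s))
    map_zero' := (hspec 0).unique (by simpa using rel_algebraMap (N := N) 0)
    map_add' := fun t s => (hspec (t + s)).unique ((hspec t).add (hspec s))
    commutes' := fun n => (hspec _).unique (rel_algebraMap n) }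

theorem rel_heckeActZ (t : heckeAlgebra N 2 ∅) : Rel t.1 (heckeActZ N t) :=
  (exists_rel t.2).choose_spec

theorem heckeActZ_injective : Function.Injective (heckeActZ N) := fun t s h =>
  Subtype.ext ((rel_heckeActZ N t).unique_left (h ▸ rel_heckeActZ N s))

theorem heckeActZ_heckeFormsGen (ℓ : Nat.Primes) :
    heckeActZ N (heckeFormsGen N 2 ℓ) = heckeParEll N ℤ ℤ ℓ :=
  (rel_heckeActZ N _).unique (rel_formOp ℓ)

/-- The Hecke algebra acting on the parabolic homomorphisms with values in any module. -/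
def heckeAct (R : Type*) [Ring R] (A : Type*) [AddCommGroup A] [Module R A] :
    heckeAlgebra N 2 ∅ →+* Module.End R (ParHom.parEllHoms (Gamma0 N) R A) :=
  (extendHom R A).comp (heckeActZ N).toRingHom

variable {N}

theorem heckeAct_apply (R : Type*) [Ring R] (A : Type*) [AddCommGroup A] [Module R A]
    (t : heckeAlgebra N 2 ∅) : heckeAct N R A t = extendEnd R A (heckeActZ N t) := rfl

theorem heckeAct_heckeFormsGen (R : Type*) [Ring R] (A : Type*) [AddCommGroup A] [Module R A]
    (ℓ : Nat.Primes) : heckeAct N R A (heckeFormsGen N 2 ℓ) = heckeParEll N R A ℓ := by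
  rw [heckeAct_apply, heckeActZ_heckeFormsGen, extendEnd_heckeParEll]

theorem heckeAct_T (R : Type*) [Ring R] (A : Type*) [AddCommGroup A] [Module R A]
    {ℓ : ℕ} (hℓ : ℓ.Prime) (hℓN : ¬ ℓ ∣ N) (hℓS : ℓ ∉ (∅ : Set ℕ)) :
    heckeAct N R A (heckeAlgebra.T hℓ hℓN hℓS) = heckeParEll N R A ⟨ℓ, hℓ⟩ := by
  exact (congrArg (heckeAct N R A) (heckeFormsGen_of_not_dvd (ℓ := ⟨ℓ, hℓ⟩) hℓN)).symm.trans
    (heckeAct_heckeFormsGen R A _)

theorem heckeAct_U (R : Type*) [Ring R] (A : Type*) [AddCommGroup A] [Module R A]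
    {q : ℕ} (hq : q.Prime) (hqN : q ∣ N) (hqS : q ∉ (∅ : Set ℕ)) :
    heckeAct N R A (heckeAlgebra.U hq hqN hqS) = heckeParEll N R A ⟨q, hq⟩ := by
  exact (congrArg (heckeAct N R A) (heckeFormsGen_of_dvd (q := ⟨q, hq⟩) hqN)).symm.trans
    (heckeAct_heckeFormsGen R A _)

/-- Naturality in the coefficients. -/
theorem comp_heckeAct {R S A B : Type*} [Ring R] [Ring S] [AddCommGroup A] [AddCommGroup B]
    [Module R A] [Module S B] (g : A →+ B) (t : heckeAlgebra N 2 ∅)
    (φ : ParHom.parEllHoms (Gamma0 N) R A) :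
    g.comp (heckeAct N R A t φ : Additive (Gamma0 N) →+ A) =
      (heckeAct N S B t ⟨g.comp (φ : Additive (Gamma0 N) →+ A),
        ParHom.mem_parEllHoms.mpr (ParHom.IsParEllHom.comp φ.2 g)⟩ :
          Additive (Gamma0 N) →+ B) :=
  comp_extendEnd R A g _ φ

variable (N)

/-- The universal Hecke algebra acting on parabolic homomorphisms. -/
def heckeAlgAct (R : Type*) [Ring R] (A : Type*) [AddCommGroup A] [Module R A] :
    ModularCurve.HeckeAlg →+* Module.End R (ParHom.parEllHoms (Gamma0 N) R A) :=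
  (heckeAct N R A).comp (heckeEvalForms N 2)

theorem heckeAlgAct_heckeGen (R : Type*) [Ring R] (A : Type*) [AddCommGroup A] [Module R A]
    (ℓ : Nat.Primes) : heckeAlgAct N R A (heckeGen ℓ) = heckeParEll N R A ℓ := by
  rw [heckeAlgAct, RingHom.comp_apply, heckeEvalForms_heckeGen, heckeAct_heckeFormsGen]

theorem heckeParEll_commute (R : Type*) [Ring R] (A : Type*) [AddCommGroup A] [Module R A]
    (ℓ q : Nat.Primes) : Commute (heckeParEll N R A ℓ) (heckeParEll N R A q) := by
  rw [← heckeAlgAct_heckeGen, ← heckeAlgAct_heckeGen]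
  exact (Commute.all _ _).map (heckeAlgAct N R A)

theorem parEllHoms_int_finite : Module.Finite ℤ (ParHom.parEllHoms (Gamma0 N) ℤ ℤ) :=
  Module.Finite.equiv (ParHom.parEquiv (ParHom.neg_one_mem_Gamma0 N) ℤ ℤ).symm

theorem heckeAlgebra_two_finite : Module.Finite ℤ (heckeAlgebra N 2 ∅) := by
  haveI := parEllHoms_int_finite N
  haveI : Module.Free ℤ (ParHom.parEllHoms (Gamma0 N) ℤ ℤ) :=
    Module.Free.of_equiv (ParHom.parEquiv (ParHom.neg_one_mem_Gamma0 N) ℤ ℤ).symm
  exact Module.Finite.of_injective (heckeActZ N).toLinearMap (heckeActZ_injective N)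

end Fermat.Agent.HeckeCohom
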