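import Mathlib
import Fermat.Agent.HeckeCohom.Action

/-!
# Integral matrices of the Hecke operators on parabolic homomorphisms
-/

set_option autoImplicit false

noncomputable section

namespace Fermat.Agent.HeckeCohom

open CongruenceSubgroup CuspForm ModularCurve

variable (N : ℕ) [NeZero N]

/-- The matrix of `t` in the coordinates `φ ↦ (φ (gen i))_i`. -/
def actMatrix : heckeAlgebra N 2 ∅ →+* Matrix (Fin (rk N)) (Fin (rk N)) ℤ :=
  ((LinearMap.toMatrixAlgEquiv (Module.Basis.ofEquivFun
    (ParHom.parEquiv (ParHom.neg_one_mem_Gamma0 N) ℤ ℤ))).toRingEquiv.toRingHom).comp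
    (heckeActZ N).toRingHom

theorem actMatrix_injective : Function.Injective (actMatrix N) := fun _ _ h =>
  heckeActZ_injective N ((LinearMap.toMatrixAlgEquiv (Module.Basis.ofEquivFun
    (ParHom.parEquiv (ParHom.neg_one_mem_Gamma0 N) ℤ ℤ))).injective h)

theorem actMatrix_apply (t : heckeAlgebra N 2 ∅) (i j : Fin (rk N)) :
    actMatrix N t i j =
      (heckeActZ N t (basisHom N j) : Additive (Gamma0 N) →+ ℤ) (Additive.ofMul (gen N i)) := by
  show LinearMap.toMatrixAlgEquiv (Module.Basis.ofEquivFun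
    (ParHom.parEquiv (ParHom.neg_one_mem_Gamma0 N) ℤ ℤ)) (heckeActZ N t) i j = _
  rw [LinearMap.toMatrixAlgEquiv_apply, Module.Basis.ofEquivFun_repr_apply,
    Module.Basis.coe_ofEquivFun]
  simp only [basisHom, gen, ParHom.parEquiv_apply]

variable {N}

/-- In the coordinates given by `gen`, `heckeAct` is multiplication by `actMatrix`. -/
theorem heckeAct_gen {R A : Type*} [Ring R] [AddCommGroup A] [Module R A]
    (t : heckeAlgebra N 2 ∅) (φ : ParHom.parEllHoms (Gamma0 N) R A) (i : Fin (rk N)) :
    (heckeAct N R A t φ : Additive (Gamma0 N) →+ A) (Additive.ofMul (gen N i)) =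
      ∑ j, actMatrix N t i j • (φ : Additive (Gamma0 N) →+ A) (Additive.ofMul (gen N j)) := by
  rw [heckeAct_apply, coe_extendEnd, AddMonoidHom.finsetSum_apply]
  refine Finset.sum_congr rfl fun j _ => ?_
  rw [AddMonoidHom.comp_apply, zmultiplesHom_apply, actMatrix_apply]

end Fermat.Agent.HeckeCohom
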