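import Mathlib

/-!
# Eigen-functionals of finite faithful modules
-/

set_option autoImplicit false

noncomputable section

namespace Fermat.Agent.HeckeCohom

/-- A finite module with zero annihilator has a nonzero `χ`-equivariant functional to any field,
for every ring homomorphism `χ`. -/
theorem exists_eigen_functional {T M k : Type*} [CommRing T] [AddCommGroup M] [Module T M]
    [Module.Finite T M] [Field k] (χ : T →+* k) (h : Module.annihilator T M ≤ RingHom.ker χ) :
    ∃ ψ : M →+ k, ψ ≠ 0 ∧ ∀ (t : T) (m : M), ψ (t • m) = χ t * ψ m := by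
  set P := RingHom.ker χ with hP
  haveI : P.IsPrime := RingHom.ker_isPrime χ
  have hmem : (⟨P, inferInstance⟩ : PrimeSpectrum T) ∈ Module.support T M := by
    rw [Module.support_eq_zeroLocus]
    exact h
  rw [Module.mem_support_iff_nontrivial_residueField_tensorProduct] at hmem
  obtain ⟨z, hz⟩ := exists_ne (0 : TensorProduct T P.ResidueField M)
  obtain ⟨f, hf⟩ := Module.Projective.exists_dual_ne_zero P.ResidueField hz
  let lift : P.ResidueField →+* k :=
    Ideal.ResidueField.lift P χ le_rfl fun x hx => IsUnit.mk0 _ hx
  let ψ : M →+ k := lift.toAddMonoidHom.comp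
    (f.toAddMonoidHom.comp (TensorProduct.mk T P.ResidueField M 1).toAddMonoidHom)
  refine ⟨ψ, ?_, ?_⟩
  · intro h0
    apply hf
    have hall : ∀ w : TensorProduct T P.ResidueField M, f w = 0 := by
      intro w
      induction w using TensorProduct.induction_on with
      | zero => simp
      | tmul a m =>
        have hm : f (1 ⊗ₜ m) = 0 :=
          lift.injective (by rw [map_zero]; exact DFunLike.congr_fun h0 m)
        have ha : (a ⊗ₜ[T] m : TensorProduct T P.ResidueField M) = a • (1 ⊗ₜ[T] m) := by
          rw [TensorProduct.smul_tmul', smul_eq_mul, mul_one]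
        rw [ha, map_smul, hm, smul_zero]
      | add a b ha hb => rw [map_add, ha, hb, add_zero]
    exact hall z
  · intro t m
    show lift (f (1 ⊗ₜ (t • m))) = χ t * lift (f (1 ⊗ₜ m))
    rw [TensorProduct.tmul_smul, algebra_compatible_smul P.ResidueField t, map_smul, smul_eq_mul,
      map_mul]
    congr 1
    exact Ideal.ResidueField.lift_algebraMap _ _ _ _ _

end Fermat.Agent.HeckeCohom
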