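import Mathlib
import Fermat.Agent.HeckeCohom.Action
import Fermat.Agent.HeckeCohom.Eigen

/-!
# Eigenvectors and torsion in parabolic homomorphisms

Every character of the weight two Hecke algebra with values in a field has an eigenvector among the
parabolic homomorphisms; every maximal ideal over `p` kills a nonzero homomorphism to `ZMod p`.
-/

set_option autoImplicit false

noncomputable section

namespace Fermat.Agent.HeckeCohom

open CongruenceSubgroup ModularCurve CuspForm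
open scoped MatrixGroups

variable {N : ℕ} [NeZero N]

/-- The transpose action of the Hecke algebra on the dual of the integral parabolic homs. -/
def dualAct (N : ℕ) [NeZero N] : heckeAlgebra N 2 ∅ →+*
    Module.End ℤ (Module.Dual ℤ (ParHom.parEllHoms (Gamma0 N) ℤ ℤ)) where
  toFun t := (heckeActZ N t).dualMap
  map_one' := by rw [map_one]; rfl
  map_mul' t s := by rw [mul_comm t s, map_mul]; rfl
  map_zero' := LinearMap.ext fun _ => LinearMap.ext fun _ => by simp
  map_add' t s := LinearMap.ext fun _ => LinearMap.ext fun _ => by simp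

/-- Evaluation at `gen N i`, as a linear form. -/
def coordForm (i : Fin (rk N)) : Module.Dual ℤ (ParHom.parEllHoms (Gamma0 N) ℤ ℤ) where
  toFun e := (e : Additive (Gamma0 N) →+ ℤ) (Additive.ofMul (gen N i))
  map_add' _ _ := rfl
  map_smul' _ _ := rfl

theorem dual_decomp (y : Module.Dual ℤ (ParHom.parEllHoms (Gamma0 N) ℤ ℤ)) :
    y = ∑ i, y (basisHom N i) • coordForm i := by
  refine LinearMap.ext fun e => ?_
  conv_lhs => rw [decomp_int e]
  simp [coordForm, map_sum, mul_comm]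

theorem eq_zero_of_dualAct_eq_zero {t : heckeAlgebra N 2 ∅} (h : dualAct N t = 0) : t = 0 := by
  apply heckeActZ_injective N
  rw [map_zero]
  refine LinearMap.ext fun e => ?_
  have hz : ∀ i, ((heckeActZ N t e : ParHom.parEllHoms (Gamma0 N) ℤ ℤ) :
      Additive (Gamma0 N) →+ ℤ) (Additive.ofMul (gen N i)) = 0 := fun i =>
    LinearMap.congr_fun (LinearMap.congr_fun h (coordForm i)) e
  rw [decomp_int (heckeActZ N t e)]
  simp [hz]

/-- Every character of the Hecke algebra has an eigenvector in parabolic homomorphisms. -/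
theorem exists_eigenvector {k : Type*} [Field k] (χ : heckeAlgebra N 2 ∅ →+* k) :
    ∃ φ : ParHom.parEllHoms (Gamma0 N) k k, φ ≠ 0 ∧ ∀ t, heckeAct N k k t φ = χ t • φ := by
  haveI hfin := parEllHoms_int_finite N
  haveI : Module.Free ℤ (ParHom.parEllHoms (Gamma0 N) ℤ ℤ) :=
    Module.Free.of_equiv (ParHom.parEquiv (ParHom.neg_one_mem_Gamma0 N) ℤ ℤ).symm
  letI inst : Module (heckeAlgebra N 2 ∅)
      (Module.Dual ℤ (ParHom.parEllHoms (Gamma0 N) ℤ ℤ)) := Module.compHom _ (dualAct N)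
  haveI : Module.Finite (heckeAlgebra N 2 ∅)
      (Module.Dual ℤ (ParHom.parEllHoms (Gamma0 N) ℤ ℤ)) :=
    Module.Finite.of_restrictScalars_finite ℤ _ _
  obtain ⟨ψ, hψ, hψt⟩ := exists_eigen_functional
    (M := Module.Dual ℤ (ParHom.parEllHoms (Gamma0 N) ℤ ℤ)) χ fun t ht => by
      rw [eq_zero_of_dualAct_eq_zero (LinearMap.ext fun y => Module.mem_annihilator.mp ht y)]
      exact zero_mem _
  let v : Fin (rk N) → k := fun i => ψ (coordForm i)
  let φ : ParHom.parEllHoms (Gamma0 N) k k :=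
    (ParHom.parEquiv (ParHom.neg_one_mem_Gamma0 N) k k).symm v
  have hφ : ∀ i, (φ : Additive (Gamma0 N) →+ k) (Additive.ofMul (gen N i)) = v i := fun i =>
    congrFun ((ParHom.parEquiv (ParHom.neg_one_mem_Gamma0 N) k k).apply_symm_apply v) i
  refine ⟨φ, ?_, fun t => ?_⟩
  · intro h0
    apply hψ
    refine AddMonoidHom.ext fun y => ?_
    have hv : ∀ i, ψ (coordForm i) = 0 := fun i => by
      show v i = 0
      rw [← hφ, h0]
      rfl
    rw [dual_decomp y, map_sum]
    simp [map_zsmul, hv]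
  · apply (ParHom.parEquiv (ParHom.neg_one_mem_Gamma0 N) k k).injective
    funext j
    show (heckeAct N k k t φ : Additive (Gamma0 N) →+ k) (Additive.ofMul (gen N j))
      = χ t * (φ : Additive (Gamma0 N) →+ k) (Additive.ofMul (gen N j))
    rw [hφ, ← hψt t (coordForm j), heckeAct_apply, coe_extendEnd, AddMonoidHom.finsetSum_apply,
      dual_decomp (t • coordForm j), map_sum]
    refine Finset.sum_congr rfl fun i _ => ?_
    rw [AddMonoidHom.comp_apply, zmultiplesHom_apply, hφ, map_zsmul]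
    rfl

theorem exists_addHom_zmod_ne_zero {k : Type*} [Field k] {p : ℕ} [Fact p.Prime] (hp : (p : k) = 0)
    {a : k} (ha : a ≠ 0) : ∃ f : k →+ ZMod p, f a ≠ 0 := by
  haveI : CharP k p := (CharP.charP_iff_prime_eq_zero Fact.out).mpr hp
  letI := ZMod.algebra k p
  obtain ⟨f, hf⟩ := Module.Projective.exists_dual_ne_zero (ZMod p) ha
  exact ⟨f.toAddMonoidHom, hf⟩

theorem exists_ne_zero_killed_of_field {p : ℕ} [Fact p.Prime] {k : Type*} [Field k]
    (χ : heckeAlgebra N 2 ∅ →+* k) (hp : χ (p : heckeAlgebra N 2 ∅) = 0) :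
    ∃ φ : ParHom.parEllHoms (Gamma0 N) ℤ (ZMod p), φ ≠ 0 ∧
      ∀ t, χ t = 0 → heckeAct N ℤ (ZMod p) t φ = 0 := by
  rw [map_natCast] at hp
  obtain ⟨φ, hφ, hφt⟩ := exists_eigenvector χ
  obtain ⟨a, ha⟩ : ∃ a, (φ : Additive (Gamma0 N) →+ k) a ≠ 0 := by
    by_contra hall
    push Not at hall
    exact hφ (Subtype.ext (AddMonoidHom.ext hall))
  obtain ⟨f, hf⟩ := exists_addHom_zmod_ne_zero hp ha
  refine ⟨⟨f.comp (φ : Additive (Gamma0 N) →+ k),
    ParHom.mem_parEllHoms.mpr (ParHom.IsParEllHom.comp φ.2 _)⟩, fun h0 => hf ?_, fun t ht => ?_⟩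
  · exact DFunLike.congr_fun (congrArg Subtype.val h0) a
  · refine Subtype.ext ?_
    rw [← comp_heckeAct (R := k) f t φ, hφt, ht, zero_smul]
    exact AddMonoidHom.ext fun _ => map_zero f

/-- A maximal ideal over `p` annihilates a nonzero parabolic homomorphism to `ZMod p`. -/
theorem exists_ne_zero_killed {p : ℕ} [Fact p.Prime] (m : Ideal (heckeAlgebra N 2 ∅)) [m.IsMaximal]
    (hp : (p : heckeAlgebra N 2 ∅) ∈ m) :
    ∃ φ : ParHom.parEllHoms (Gamma0 N) ℤ (ZMod p), φ ≠ 0 ∧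
      ∀ t ∈ m, heckeAct N ℤ (ZMod p) t φ = 0 := by
  obtain ⟨φ, hφ, hφt⟩ := @exists_ne_zero_killed_of_field N _ p _ _ (Ideal.Quotient.field m)
    (Ideal.Quotient.mk m) (Ideal.Quotient.eq_zero_iff_mem.mpr hp)
  exact ⟨φ, hφ, fun t ht => hφt t (Ideal.Quotient.eq_zero_iff_mem.mpr ht)⟩

theorem heckeEvalForms_surjective (N : ℕ) [NeZero N] :
    Function.Surjective (heckeEvalForms N 2) := by
  rintro ⟨t, ht⟩
  induction ht using Algebra.adjoin_induction with
  | mem t ht =>
    rcases ht with ⟨ℓ, hℓ, hℓN, hℓS, rfl⟩ | ⟨q, hqN, hq, hqS, rfl⟩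
    · exact ⟨heckeGen ⟨ℓ, hℓ⟩, heckeEvalForms_heckeGen_of_not_dvd (ℓ := ⟨ℓ, hℓ⟩) hℓN⟩
    · exact ⟨heckeGen ⟨q, hq⟩, heckeEvalForms_heckeGen_of_dvd (q := ⟨q, hq⟩) hqN⟩
  | algebraMap n => exact ⟨MvPolynomial.C n, heckeEvalForms_C N 2 n⟩
  | add t s _ _ iht ihs =>
    obtain ⟨a, ha⟩ := iht; obtain ⟨b, hb⟩ := ihs
    exact ⟨a + b, by rw [map_add, ha, hb]; rfl⟩
  | mul t s _ _ iht ihs =>
    obtain ⟨a, ha⟩ := iht; obtain ⟨b, hb⟩ := ihs
    exact ⟨a * b, by rw [map_mul, ha, hb]; rfl⟩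

/-- The version of `exists_ne_zero_killed` for the universal Hecke algebra. -/
theorem exists_ne_zero_killed_heckeAlg {p : ℕ} [Fact p.Prime] (m : Ideal HeckeAlg) [hm : m.IsMaximal]
    (hker : RingHom.ker (heckeEvalForms N 2) ≤ m) (hp : MvPolynomial.C (p : ℤ) ∈ m) :
    ∃ φ : ParHom.parEllHoms (Gamma0 N) ℤ (ZMod p), φ ≠ 0 ∧
      ∀ t ∈ m, heckeAlgAct N ℤ (ZMod p) t φ = 0 := by
  have hs := heckeEvalForms_surjective N
  haveI : (m.map (heckeEvalForms N 2)).IsMaximal :=
    Ideal.IsMaximal.map_of_surjective_of_ker_le hs hker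
  obtain ⟨φ, hφ, hφt⟩ := exists_ne_zero_killed (p := p) (m.map (heckeEvalForms N 2)) (by
    have := Ideal.mem_map_of_mem (heckeEvalForms N 2) hp
    rwa [heckeEvalForms_C, map_natCast] at this)
  exact ⟨φ, hφ, fun t ht => hφt _ (Ideal.mem_map_of_mem _ ht)⟩

end Fermat.Agent.HeckeCohom
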